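/-
S55 / 14-LOC-H (helper24): local norm index theorem, MODEL-INDEPENDENT core.

Setting: `L/K` a finite Galois extension of fields (`K L : Type`), `v : Valuation L Γ₀` a
`Gal(L/K)`-invariant, discrete, complete valuation with finite residue field, everything phrased
elementwise (`LocalDatum`), so that any model of local fields (finite extensions of `ℚ_q` inside
`PadicAlgCl q`, completions of number fields, ...) can instantiate it.

This file: the datum and elementary consequences (a `Gal`-fixed element `p = N(ϖ)` of valuation
`< 1`, boundedness of the value group).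
-/
import Mathlib

set_option autoImplicit false

open scoped BigOperators

namespace Fermat.Agent.S55.LocH24

variable (K L : Type) [Field K] [Field L] [Algebra K L]
variable {Γ₀ : Type*} [LinearOrderedCommGroupWithZero Γ₀] (v : Valuation L Γ₀)

/-- A complete discretely valued field `L` with finite residue field, on which `Gal(L/K)` acts by
isometries; all conditions elementwise. -/
structure LocalDatum : Prop where
  /-- the Galois group acts by isometries -/
  v_smul : ∀ (σ : L ≃ₐ[K] L) (x : L), v (σ x) = v x
  /-- a uniformizer -/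
  exists_unif : ∃ ϖ : L, ϖ ≠ 0 ∧ v ϖ < 1 ∧ ∀ x, v x < 1 → v x ≤ v ϖ
  /-- separatedness (rank one) -/
  sep : ∀ t x : L, v t < 1 → (∀ N : ℕ, v x ≤ v t ^ N) → x = 0
  /-- completeness: geometrically small series converge, with the ultrametric tail estimate -/
  complete : ∀ t : L, v t < 1 → ∀ d : ℕ → L, (∀ n, v (d n) ≤ v t ^ n) →
    ∃ s, ∀ N, v (s - ∑ n ∈ Finset.range N, d n) ≤ v t ^ N
  /-- finite residue field: a finite set of representatives of `𝒪_L / 𝔪_L` -/
  res_finite : ∃ R : Finset L, ∀ x, v x ≤ 1 → ∃ r ∈ R, v (x - r) < 1

variable {K L v}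

namespace LocalDatum

variable (D : LocalDatum K L v)
include D

/-- every nonzero element is dominated by a power of any nonzero `t` with `v t < 1`:
`v t ^ N * v x ≤ 1` for some `N`. -/
theorem exists_pow_mul_le_one {t : L} (ht : v t < 1) (x : L) :
    ∃ N : ℕ, v t ^ N * v x ≤ 1 := by
  by_cases hx : x = 0
  · exact ⟨0, by simp [hx]⟩
  by_contra hcon
  push Not at hcon
  -- then `v (x⁻¹) ≤ v t ^ N` for all `N`, so `x⁻¹ = 0`
  have hvx : v x ≠ 0 := (Valuation.ne_zero_iff v).mpr hx
  have : x⁻¹ = 0 := by
    refine D.sep t x⁻¹ ht fun N => ?_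
    have h := (hcon N).le
    rw [map_inv₀]
    rw [← mul_inv_le_iff₀ (zero_lt_iff.mpr hvx)] at h
    simpa using h
  exact hx (inv_eq_zero.mp this)

end LocalDatum

end Fermat.Agent.S55.LocH24
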