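/-
S55 / 14-LOC-H (helper24): the limit lemma (successive approximation) for a pair of endomorphisms
`f, g` of a complete filtered commutative group: exactness on the graded pieces implies exactness.
Multiplicative version, Mathlib only.
-/
import Mathlib

set_option autoImplicit false

open scoped BigOperators

namespace Fermat.Agent.S55.LocH24

open Finset

/-- **Limit lemma.** -/
theorem exists_of_graded {A : Type*} [CommGroup A] (f g : A →* A) (hfg : ∀ x, f (g x) = 1)
    (Fil : ℕ → Subgroup A)
    (hg : ∀ n x, x ∈ Fil n → g x ∈ Fil n)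
    (hsep : ∀ x, (∀ n, x ∈ Fil n) → x = 1)
    (hcomp : ∀ y : ℕ → A, (∀ n, y n ∈ Fil n) →
      ∃ s ∈ Fil 0, ∀ N, s / ∏ n ∈ range N, y n ∈ Fil N)
    (hgr : ∀ n x, x ∈ Fil n → f x ∈ Fil (n + 1) → ∃ y ∈ Fil n, x / g y ∈ Fil (n + 1)) :
    ∀ x ∈ Fil 0, f x = 1 → ∃ y ∈ Fil 0, g y = x := by
  classical
  intro x hx0 hfx
  -- one step
  have step : ∀ (N : ℕ) (P : A), x / g P ∈ Fil N →
      ∃ y ∈ Fil N, x / g (P * y) ∈ Fil (N + 1) := by
    intro N P hP
    have hf1 : f (x / g P) ∈ Fil (N + 1) := by
      rw [map_div, hfx, hfg, div_one]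
      exact (Fil (N + 1)).one_mem
    obtain ⟨y, hy, hxy⟩ := hgr N _ hP hf1
    refine ⟨y, hy, ?_⟩
    rw [map_mul, ← div_div]
    exact hxy
  -- the sequence
  let yy : (N : ℕ) → (P : A) → A := fun N P =>
    if h : x / g P ∈ Fil N then Classical.choose (step N P h) else 1
  let P : ℕ → A := fun N => Nat.rec (1 : A) (fun N P => P * yy N P) N
  have hP0 : P 0 = 1 := rfl
  have hPs : ∀ N, P (N + 1) = P N * yy N (P N) := fun N => rfl
  have hinv : ∀ N, x / g (P N) ∈ Fil N := by
    intro N
    induction N with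
    | zero => rw [hP0, map_one, div_one]; exact hx0
    | succ N ih =>
      rw [hPs]
      have : yy N (P N) = Classical.choose (step N (P N) ih) := dif_pos ih
      rw [this]
      exact (Classical.choose_spec (step N (P N) ih)).2
  have hy : ∀ N, yy N (P N) ∈ Fil N := by
    intro N
    have : yy N (P N) = Classical.choose (step N (P N) (hinv N)) := dif_pos (hinv N)
    rw [this]
    exact (Classical.choose_spec (step N (P N) (hinv N))).1
  have hprod : ∀ N, ∏ n ∈ range N, yy n (P n) = P N := by
    intro N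
    induction N with
    | zero => simp [hP0]
    | succ N ih => rw [prod_range_succ, ih, hPs]
  obtain ⟨s, hs0, hs⟩ := hcomp (fun n => yy n (P n)) hy
  refine ⟨s, hs0, ?_⟩
  have hx1 : x / g s = 1 := by
    refine hsep _ fun N => ?_
    have h1 := hinv N
    have h2 : g (P N / s) ∈ Fil N := by
      refine hg N _ ?_
      have := (Fil N).inv_mem (hs N)
      rwa [hprod N, inv_div] at this
    have h3 : x / g s = x / g (P N) * g (P N / s) := by
      rw [map_div, div_mul_div_cancel]
    rw [h3]
    exact (Fil N).mul_mem h1 h2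
  exact (div_eq_one.mp hx1).symm

end Fermat.Agent.S55.LocH24
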