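/-
S55 / 14-LOC-H (helper24): the normal-basis lattice.

`B : Basis Gal(L/K) K L` a normal basis (`σ (B τ) = B (σ τ)`) consisting of integral elements,
`p : K` with `0 < v p < 1`.  `I B p j = p^j • (⊕ 𝒪_K · B σ)` (coordinates of valuation `≤ v p ^ j`).
-/
import Fermat.Agent.S55.LocH24.Datum

set_option autoImplicit false
set_option linter.unusedSectionVars false

open scoped BigOperators

namespace Fermat.Agent.S55.LocH24

variable {K L : Type} [Field K] [Field L] [Algebra K L] [FiniteDimensional K L] [IsGalois K L]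
variable {Γ₀ : Type*} [LinearOrderedCommGroupWithZero Γ₀] {v : Valuation L Γ₀}

/-- the valuation of `K` induced by `v` -/
abbrev vK (v : Valuation L Γ₀) : Valuation K Γ₀ := v.comap (algebraMap K L)

theorem vK_apply (c : K) : vK (K := K) v c = v (algebraMap K L c) := rfl

/-- An integral normal basis. -/
structure NBasis (K L : Type) [Field K] [Field L] [Algebra K L] (v : Valuation L Γ₀) where
  B : Module.Basis (L ≃ₐ[K] L) K L
  smul_B : ∀ σ τ : L ≃ₐ[K] L, σ (B τ) = B (σ * τ)
  v_B : ∀ σ, v (B σ) ≤ 1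

variable (N : NBasis K L v) (p : K)

/-- `I N p j`: elements all of whose normal-basis coordinates have valuation `≤ v p ^ j`. -/
def I (j : ℕ) : AddSubgroup L where
  carrier := {x | ∀ σ, vK v (N.B.repr x σ) ≤ vK v p ^ j}
  zero_mem' := by intro σ; simp
  add_mem' := by
    intro x y hx hy σ
    rw [map_add, Finsupp.add_apply]
    exact Valuation.map_add_le _ (hx σ) (hy σ)
  neg_mem' := by
    intro x hx σ
    rw [map_neg, Finsupp.neg_apply, Valuation.map_neg]
    exact hx σ

variable {N p}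

theorem mem_I {j : ℕ} {x : L} : x ∈ I N p j ↔ ∀ σ, vK v (N.B.repr x σ) ≤ vK v p ^ j := Iff.rfl

theorem I_anti (hp : vK v p ≤ 1) {i j : ℕ} (h : i ≤ j) : I N p j ≤ I N p i := by
  intro x hx σ
  exact (hx σ).trans (pow_le_pow_of_le_one zero_le hp h)

/-- elements of `I j` are small -/
theorem v_le_of_mem_I {j : ℕ} {x : L} (hx : x ∈ I N p j) : v x ≤ vK v p ^ j := by
  rw [← N.B.sum_repr x]
  refine Valuation.map_sum_le _ fun σ _ => ?_
  rw [Algebra.smul_def, map_mul]
  calc v (algebraMap K L (N.B.repr x σ)) * v (N.B σ) ≤ vK v p ^ j * 1 :=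
        mul_le_mul' (hx σ) (N.v_B σ)
    _ = vK v p ^ j := mul_one _

/-- scalar multiples -/
theorem smul_mem_I {i j : ℕ} {a : K} (ha : vK v a ≤ vK v p ^ i) {x : L} (hx : x ∈ I N p j) :
    a • x ∈ I N p (i + j) := by
  intro σ
  rw [map_smul, Finsupp.smul_apply, smul_eq_mul, map_mul, pow_add]
  exact mul_le_mul' ha (hx σ)

/-- coordinates of a Galois translate -/
theorem repr_smul (σ : L ≃ₐ[K] L) (x : L) (τ : L ≃ₐ[K] L) :
    N.B.repr (σ x) τ = N.B.repr x (σ⁻¹ * τ) := by
  have h : σ x = ∑ ρ : L ≃ₐ[K] L, (N.B.repr x (σ⁻¹ * ρ)) • N.B ρ := by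
    conv_lhs => rw [← N.B.sum_repr x]
    rw [map_sum]
    refine Fintype.sum_equiv (Equiv.mulLeft σ) _ _ fun ρ => ?_
    rw [map_smul, N.smul_B]
    simp
  rw [h, N.B.repr_sum_self]

theorem smul_mem_I_iff (σ : L ≃ₐ[K] L) {j : ℕ} {x : L} : σ x ∈ I N p j ↔ x ∈ I N p j := by
  constructor
  · intro h τ
    have := h (σ * τ)
    rwa [repr_smul, inv_mul_cancel_left] at this
  · intro h τ
    rw [repr_smul]
    exact h _

/-- the basis vectors -/
theorem B_mem_I (σ : L ≃ₐ[K] L) : N.B σ ∈ I N p 0 := by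
  intro τ
  rw [N.B.repr_self, pow_zero]
  by_cases h : σ = τ
  · subst h; simp
  · simp [h]

end Fermat.Agent.S55.LocH24
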