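/-
S55 / 14-LOC-H (helper24): the normal-basis lattice, part 2: comparison with the valuation ring
(trace-form dual basis), products, existence of an integral normal basis, and the two
"induced module" facts on the graded pieces.
-/
import Fermat.Agent.S55.LocH24.Lattice

set_option autoImplicit false
set_option linter.unusedSectionVars false

open scoped BigOperators Classical

namespace Fermat.Agent.S55.LocH24

variable {K L : Type} [Field K] [Field L] [Algebra K L] [FiniteDimensional K L] [IsGalois K L]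
variable {Γ₀ : Type*} [LinearOrderedCommGroupWithZero Γ₀] {v : Valuation L Γ₀}

/-- the trace is bounded by the valuation -/
theorem vK_trace_le (hv : ∀ (σ : L ≃ₐ[K] L) (x : L), v (σ x) = v x) (y : L) :
    vK v (Algebra.trace K L y) ≤ v y := by
  rw [vK_apply, trace_eq_sum_automorphisms]
  exact Valuation.map_sum_le _ fun σ _ => (hv σ y).le

/-- the norm has valuation `v y ^ |G|` -/
theorem vK_norm (hv : ∀ (σ : L ≃ₐ[K] L) (x : L), v (σ x) = v x) (y : L) :
    vK v (Algebra.norm K y) = v y ^ Nat.card (L ≃ₐ[K] L) := by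
  rw [vK_apply, Algebra.norm_eq_prod_automorphisms, map_prod]
  simp [hv, Finset.prod_const, Nat.card_eq_fintype_card]

variable (N : NBasis K L v) {p : K}

/-- coordinates via the trace-form dual basis -/
theorem repr_eq_trace (x : L) (σ : L ≃ₐ[K] L) :
    N.B.repr x σ = Algebra.trace K L
      (x * (Algebra.traceForm K L).dualBasis (traceForm_nondegenerate K L) N.B σ) := by
  have h := LinearMap.BilinForm.apply_dualBasis_right (B := Algebra.traceForm K L)
    (traceForm_nondegenerate K L) (Algebra.traceForm_isSymm K) N.B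
  conv_rhs => rw [← N.B.sum_repr x]
  rw [Finset.sum_mul, map_sum]
  have h2 : ∀ τ : L ≃ₐ[K] L, Algebra.trace K L (N.B.repr x τ • N.B τ *
      (Algebra.traceForm K L).dualBasis (traceForm_nondegenerate K L) N.B σ) =
      if τ = σ then N.B.repr x τ else 0 := by
    intro τ
    rw [smul_mul_assoc, map_smul, ← Algebra.traceForm_apply, h]
    split_ifs <;> simp
  rw [Finset.sum_congr rfl fun τ _ => h2 τ]
  simp

variable (D : LocalDatum K L v)
include D

/-- **(M2)**: small elements lie in the lattice. -/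
theorem exists_bound (hp : vK v p < 1) :
    ∃ c : ℕ, ∀ (j : ℕ) (x : L), v x ≤ vK v p ^ (j + c) → x ∈ I N p j := by
  classical
  set d := (Algebra.traceForm K L).dualBasis (traceForm_nondegenerate K L) N.B with hd
  have hp' : v (algebraMap K L p) < 1 := hp
  choose cσ hcσ using fun σ : L ≃ₐ[K] L => D.exists_pow_mul_le_one hp' (d σ)
  refine ⟨∑ σ, cσ σ, fun j x hx σ => ?_⟩
  rw [repr_eq_trace N x σ]
  refine (vK_trace_le D.v_smul _).trans ?_
  rw [map_mul]
  have h1 : vK v p ^ (∑ τ, cσ τ) ≤ vK v p ^ cσ σ :=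
    pow_le_pow_of_le_one zero_le hp.le (Finset.single_le_sum (fun _ _ => Nat.zero_le _)
      (Finset.mem_univ σ))
  calc v x * v (d σ) ≤ vK v p ^ (j + ∑ τ, cσ τ) * v (d σ) := mul_le_mul_left hx _
    _ = vK v p ^ j * (vK v p ^ (∑ τ, cσ τ) * v (d σ)) := by rw [pow_add, mul_assoc]
    _ ≤ vK v p ^ j * (vK v p ^ cσ σ * v (d σ)) := by gcongr
    _ ≤ vK v p ^ j * 1 := by gcongr; exact hcσ σ
    _ = vK v p ^ j := mul_one _

omit D in
/-- products -/
theorem mul_mem_I {c : ℕ} (hc : ∀ (j : ℕ) (x : L), v x ≤ vK v p ^ (j + c) → x ∈ I N p j)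
    {i j : ℕ} {x y : L} (hx : x ∈ I N p i) (hy : y ∈ I N p (j + c)) : x * y ∈ I N p (i + j) := by
  apply hc
  rw [map_mul, add_assoc, pow_add]
  exact mul_le_mul' (v_le_of_mem_I hx) (v_le_of_mem_I hy)

omit D in
/-- multiplication by an integral element -/
theorem int_mul_mem_I {c : ℕ} (hc : ∀ (j : ℕ) (x : L), v x ≤ vK v p ^ (j + c) → x ∈ I N p j)
    {j : ℕ} {z y : L} (hz : v z ≤ 1) (hy : y ∈ I N p (j + c)) : z * y ∈ I N p j := by
  apply hc
  rw [map_mul]
  calc v z * v y ≤ 1 * vK v p ^ (j + c) := mul_le_mul' hz (v_le_of_mem_I hy)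
    _ = _ := one_mul _

end Fermat.Agent.S55.LocH24
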