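/-
S55 / 14-LOC-H (helper24): existence of an integral normal basis and the two "induced module"
facts on the graded pieces `I j / I (j+1)` (for a generator `g` of the cyclic group `Gal(L/K)`):
* invariants are traces;
* the kernel of the trace is the image of `g - 1`.
-/
import Fermat.Agent.S55.LocH24.Lattice2

set_option autoImplicit false
set_option linter.unusedSectionVars false

open scoped BigOperators Classical

namespace Fermat.Agent.S55.LocH24

variable {K L : Type} [Field K] [Field L] [Algebra K L] [FiniteDimensional K L] [IsGalois K L]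
variable {Γ₀ : Type*} [LinearOrderedCommGroupWithZero Γ₀] {v : Valuation L Γ₀}

/-- existence of an integral normal basis -/
theorem exists_nbasis (D : LocalDatum K L v) {p : K} (hp : vK v p < 1) (hp0 : p ≠ 0) :
    Nonempty (NBasis K L v) := by
  have hp' : v (algebraMap K L p) < 1 := hp
  obtain ⟨a, ha⟩ := D.exists_pow_mul_le_one hp' (IsGalois.normalBasis K L 1)
  refine ⟨⟨(IsGalois.normalBasis K L).unitsSMul
    (fun _ => Units.mk0 (p ^ a) (pow_ne_zero _ hp0)), ?_, ?_⟩⟩
  · intro σ τ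
    rw [Module.Basis.unitsSMul_apply, Module.Basis.unitsSMul_apply, Units.smul_def,
      Units.smul_def, map_smul, IsGalois.normalBasis_apply, IsGalois.normalBasis_apply (σ * τ)]
    rfl
  · intro σ
    rw [Module.Basis.unitsSMul_apply, Units.smul_def, Units.val_mk0, Algebra.smul_def, map_mul,
      map_pow, map_pow, IsGalois.normalBasis_apply, D.v_smul]
    exact ha

variable (N : NBasis K L v) {p : K} {g : L ≃ₐ[K] L}

/-- the translate of a multiple of the first basis vector -/
theorem smul_smul_B_one (σ : L ≃ₐ[K] L) (a : K) : σ (a • N.B 1) = a • N.B σ := by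
  rw [map_smul, N.smul_B, mul_one]

/-- **invariants of the graded piece are traces** -/
theorem exists_trace_approx (hg : ∀ σ : L ≃ₐ[K] L, σ ∈ Subgroup.zpowers g) {j : ℕ} {x : L}
    (hx : x ∈ I N p j) (hgx : g x - x ∈ I N p (j + 1)) :
    ∃ a : K, vK v a ≤ vK v p ^ j ∧ x - ∑ σ : L ≃ₐ[K] L, σ (a • N.B 1) ∈ I N p (j + 1) := by
  set c := fun σ : L ≃ₐ[K] L => N.B.repr x σ with hc
  -- the subgroup of `σ` with `c (σ τ) ≡ c τ`
  let H : Subgroup (L ≃ₐ[K] L) :=
    { carrier := {σ | ∀ τ, vK v (c (σ * τ) - c τ) ≤ vK v p ^ (j + 1)}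
      one_mem' := by intro τ; simp
      mul_mem' := by
        intro σ σ' hσ hσ' τ
        have : c (σ * σ' * τ) - c τ = (c (σ * (σ' * τ)) - c (σ' * τ)) + (c (σ' * τ) - c τ) := by
          rw [mul_assoc]; ring
        rw [this]
        exact Valuation.map_add_le _ (hσ _) (hσ' _)
      inv_mem' := by
        intro σ hσ τ
        have h := hσ (σ⁻¹ * τ)
        rw [mul_inv_cancel_left] at h
        rw [← Valuation.map_neg, neg_sub]
        exact h }
  have hginv : g⁻¹ ∈ H := by
    intro τ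
    have h := hgx τ
    rw [map_sub, Finsupp.sub_apply, repr_smul] at h
    exact h
  have hgH : g ∈ H := by simpa using H.inv_mem hginv
  have hall : ∀ σ : L ≃ₐ[K] L, σ ∈ H := fun σ =>
    (Subgroup.zpowers_le.mpr hgH) (hg σ)
  refine ⟨c 1, hx 1, fun σ => ?_⟩
  have hsum : ∑ τ : L ≃ₐ[K] L, τ (c 1 • N.B 1) = ∑ τ : L ≃ₐ[K] L, (fun _ => c 1) τ • N.B τ := by
    refine Finset.sum_congr rfl fun τ _ => ?_
    rw [smul_smul_B_one]
  rw [map_sub, Finsupp.sub_apply, hsum, N.B.repr_sum_self]
  have := hall σ 1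
  rwa [mul_one] at this

/-- **the kernel of the trace on the graded piece is the image of `g - 1`** -/
theorem exists_sub_approx (hg : ∀ σ : L ≃ₐ[K] L, σ ∈ Subgroup.zpowers g) {j : ℕ} {x : L}
    (hx : x ∈ I N p j) (htr : ∑ σ : L ≃ₐ[K] L, σ x ∈ I N p (j + 1)) :
    ∃ y ∈ I N p j, x - (g y - y) ∈ I N p (j + 1) := by
  set c := fun σ : L ≃ₐ[K] L => N.B.repr x σ with hc
  set a := fun σ : L ≃ₐ[K] L => c σ • N.B 1 with ha
  have haI : ∀ σ, a σ ∈ I N p j := by
    intro σ
    have h := smul_mem_I (N := N) (p := p) (i := j) (j := 0) (a := c σ) (by simpa using hx σ)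
      (B_mem_I (N := N) (p := p) 1)
    simpa using h
  -- `x = ∑ σ (a σ)`
  have hxsum : x = ∑ σ : L ≃ₐ[K] L, σ (a σ) := by
    conv_lhs => rw [← N.B.sum_repr x]
    refine Finset.sum_congr rfl fun σ _ => ?_
    rw [smul_smul_B_one]
  -- the sum of the coordinates is small
  set s := ∑ σ : L ≃ₐ[K] L, c σ with hs
  have hs_small : vK v s ≤ vK v p ^ (j + 1) := by
    have h := htr 1
    rw [map_sum, Finset.sum_apply'] at h
    have h2 : ∑ σ : L ≃ₐ[K] L, N.B.repr (σ x) 1 = s := by
      rw [hs]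
      refine Fintype.sum_equiv (Equiv.inv _) _ _ fun σ => ?_
      rw [repr_smul, mul_one]
      rfl
    rwa [h2] at h
  have hsumA : ∑ σ : L ≃ₐ[K] L, a σ = s • N.B 1 := by
    rw [hs, Finset.sum_smul]
  -- exponents
  have hpow : ∀ σ : L ≃ₐ[K] L, ∃ k : ℕ, g ^ k = σ := by
    intro σ
    have h1 := hg σ
    rw [← (isOfFinOrder_of_finite g).mem_powers_iff_mem_zpowers] at h1
    exact (Submonoid.mem_powers_iff _ _).mp h1
  choose k hk using hpow
  refine ⟨∑ σ : L ≃ₐ[K] L, ∑ i ∈ Finset.range (k σ), (g ^ i) (a σ), ?_, ?_⟩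
  · refine AddSubgroup.sum_mem _ fun σ _ => AddSubgroup.sum_mem _ fun i _ => ?_
    exact (smul_mem_I_iff (g ^ i)).mpr (haI σ)
  · have htel : g (∑ σ : L ≃ₐ[K] L, ∑ i ∈ Finset.range (k σ), (g ^ i) (a σ)) -
        ∑ σ : L ≃ₐ[K] L, ∑ i ∈ Finset.range (k σ), (g ^ i) (a σ) =
        ∑ σ : L ≃ₐ[K] L, (σ (a σ) - a σ) := by
      rw [map_sum, ← Finset.sum_sub_distrib]
      refine Finset.sum_congr rfl fun σ _ => ?_
      rw [map_sum, ← Finset.sum_sub_distrib]
      have : ∀ i ∈ Finset.range (k σ), g ((g ^ i) (a σ)) - (g ^ i) (a σ) =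
          (fun i => (g ^ i) (a σ)) (i + 1) - (fun i => (g ^ i) (a σ)) i := by
        intro i _
        simp only [pow_succ']
        rfl
      rw [Finset.sum_congr rfl this, Finset.sum_range_sub (fun i => (g ^ i) (a σ)) (k σ), hk σ]
      simp
    rw [htel, Finset.sum_sub_distrib, ← hxsum, hsumA, sub_sub_cancel]
    have h := smul_mem_I (N := N) (p := p) (i := j + 1) (j := 0) (a := s) hs_small
      (B_mem_I (N := N) (p := p) 1)
    simpa using h

end Fermat.Agent.S55.LocH24
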