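/-
S55 / 14-LOC-H (helper24): the filtration `V n = 1 + J n` of the unit group by the normal-basis
lattice, `J n = I (2c + 1 + n)`, and its linearisation modulo `J (n+1)`.
-/
import Fermat.Agent.S55.LocH24.Lattice3

set_option autoImplicit false
set_option linter.unusedSectionVars false

open scoped BigOperators Classical

namespace Fermat.Agent.S55.LocH24

variable {K L : Type} [Field K] [Field L] [Algebra K L] [FiniteDimensional K L] [IsGalois K L]
variable {Γ₀ : Type*} [LinearOrderedCommGroupWithZero Γ₀] {v : Valuation L Γ₀}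

/-- all the choices: datum, integral normal basis, `p ∈ K` with `0 < v p < 1`, the constant `c`
comparing the lattice with the valuation ring, a generator `g` of the Galois group -/
structure Ctx (K L : Type) [Field K] [Field L] [Algebra K L] [FiniteDimensional K L]
    (v : Valuation L Γ₀) where
  D : LocalDatum K L v
  N : NBasis K L v
  p : K
  hp : vK v p < 1
  hp0 : p ≠ 0
  c : ℕ
  hc : ∀ (j : ℕ) (x : L), v x ≤ vK v p ^ (j + c) → x ∈ I N p j
  g : L ≃ₐ[K] L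
  hg : ∀ σ : L ≃ₐ[K] L, σ ∈ Subgroup.zpowers g

namespace Ctx

variable (C : Ctx K L v)

/-- the shifted filtration -/
def J (n : ℕ) : AddSubgroup L := I C.N C.p (2 * C.c + 1 + n)

theorem J_anti {m n : ℕ} (h : m ≤ n) : C.J n ≤ C.J m :=
  I_anti C.hp.le (by omega)

theorem v_lt_one_of_mem_J {n : ℕ} {x : L} (hx : x ∈ C.J n) : v x < 1 := by
  refine (v_le_of_mem_I hx).trans_lt ?_
  exact pow_lt_one₀ zero_le C.hp (by omega)

theorem smul_mem_J_iff (σ : L ≃ₐ[K] L) {n : ℕ} {x : L} : σ x ∈ C.J n ↔ x ∈ C.J n :=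
  smul_mem_I_iff σ

/-- **(J1)** -/
theorem mul_mem_J {m n : ℕ} {x y : L} (hx : x ∈ C.J m) (hy : y ∈ C.J n) :
    x * y ∈ C.J (m + n + 1) := by
  have hy' : y ∈ I C.N C.p ((C.c + 1 + n) + C.c) := by
    have : C.c + 1 + n + C.c = 2 * C.c + 1 + n := by omega
    rw [this]; exact hy
  have h := mul_mem_I C.N C.hc hx hy'
  exact I_anti C.hp.le (by omega) h

theorem mul_mem_J' {m n : ℕ} {x y : L} (hx : x ∈ C.J m) (hy : y ∈ C.J n) :
    x * y ∈ C.J (max m n + 1) := by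
  refine C.J_anti ?_ (C.mul_mem_J hx hy)
  rcases le_total m n with h | h
  · rw [max_eq_right h]; omega
  · rw [max_eq_left h]; omega

/-- **(J2)** inverses of `1 + ε` -/
theorem inv_approx {n : ℕ} {ε : L} (hε : ε ∈ C.J n) :
    v (1 + ε) = 1 ∧ (1 + ε)⁻¹ - 1 + ε ∈ C.J (n + 1) := by
  have hv : v (1 + ε) = 1 := Valuation.map_one_add_of_lt v (C.v_lt_one_of_mem_J hε)
  refine ⟨hv, ?_⟩
  have hx0 : (1 + ε) ≠ 0 := by
    intro h; rw [h, map_zero] at hv; exact zero_ne_one hv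
  set z := (1 + ε)⁻¹ with hz
  have hvz : v z = 1 := by rw [hz, map_inv₀, hv, inv_one]
  have hε' : ε ∈ I C.N C.p ((C.c + 1 + n) + C.c) := by
    have : C.c + 1 + n + C.c = 2 * C.c + 1 + n := by omega
    rw [this]; exact hε
  have h1 : z * ε ∈ I C.N C.p (C.c + 1 + n) := int_mul_mem_I C.N C.hc hvz.le hε'
  have h2 : (z * ε) * ε ∈ I C.N C.p ((C.c + 1 + n) + (C.c + 1 + n)) :=
    mul_mem_I C.N C.hc h1 hε'
  have h3 : z - 1 + ε = (z * ε) * ε := by
    have hz1 : z * (1 + ε) = 1 := inv_mul_cancel₀ hx0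
    have : z = 1 - z * ε := by linear_combination hz1
    calc z - 1 + ε = ε - z * ε := by linear_combination this
      _ = ε * (1 - z) := by ring
      _ = ε * (z * ε) := by rw [show 1 - z = z * ε by linear_combination -this]
      _ = z * ε * ε := by ring
  rw [h3]
  exact I_anti C.hp.le (by omega) h2

/-- the unit groups -/
def V (n : ℕ) : Subgroup Lˣ where
  carrier := {u | (u : L) - 1 ∈ C.J n}
  one_mem' := by simp
  mul_mem' := by
    intro u u' hu hu'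
    show ((u * u' : Lˣ) : L) - 1 ∈ C.J n
    have : ((u * u' : Lˣ) : L) - 1 = ((u : L) - 1) + ((u' : L) - 1) + ((u : L) - 1) * ((u' : L) - 1) := by
      push_cast; ring
    rw [this]
    exact add_mem (add_mem hu hu') (C.J_anti (by omega) (C.mul_mem_J hu hu'))
  inv_mem' := by
    intro u hu
    show ((u⁻¹ : Lˣ) : L) - 1 ∈ C.J n
    have h := (C.inv_approx hu).2
    have h2 : ((u⁻¹ : Lˣ) : L) - 1 = ((1 + ((u : L) - 1))⁻¹ - 1 + ((u : L) - 1)) - ((u : L) - 1) := by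
      rw [add_sub_cancel, Units.val_inv_eq_inv_val]; ring
    rw [h2]
    exact sub_mem (C.J_anti (by omega) h) hu

theorem mem_V {n : ℕ} {u : Lˣ} : u ∈ C.V n ↔ (u : L) - 1 ∈ C.J n := Iff.rfl

theorem V_anti {m n : ℕ} (h : m ≤ n) : C.V n ≤ C.V m := fun _ hu => C.J_anti h hu

/-- `1 + ε` as a unit -/
def mkU {n : ℕ} {ε : L} (hε : ε ∈ C.J n) : Lˣ :=
  Units.mk0 (1 + ε) (by
    intro h
    have := (C.inv_approx hε).1
    rw [h, map_zero] at this
    exact zero_ne_one this)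

theorem mkU_mem {n : ℕ} {ε : L} (hε : ε ∈ C.J n) : C.mkU hε ∈ C.V n := by
  show ((C.mkU hε : Lˣ) : L) - 1 ∈ C.J n
  simp [mkU, hε]

theorem coe_mkU {n : ℕ} {ε : L} (hε : ε ∈ C.J n) : ((C.mkU hε : Lˣ) : L) = 1 + ε := rfl

/-! ### linearisation modulo `J (n+1)` -/

theorem lin_mul {n : ℕ} {u u' : Lˣ} (hu : u ∈ C.V n) (hu' : u' ∈ C.V n) :
    (((u * u' : Lˣ) : L) - 1) - (((u : L) - 1) + ((u' : L) - 1)) ∈ C.J (n + 1) := by
  have : (((u * u' : Lˣ) : L) - 1) - (((u : L) - 1) + ((u' : L) - 1)) =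
      ((u : L) - 1) * ((u' : L) - 1) := by push_cast; ring
  rw [this]
  exact C.J_anti (by omega) (C.mul_mem_J hu hu')

theorem lin_inv {n : ℕ} {u : Lˣ} (hu : u ∈ C.V n) :
    (((u⁻¹ : Lˣ) : L) - 1) + ((u : L) - 1) ∈ C.J (n + 1) := by
  have h := (C.inv_approx hu).2
  rwa [add_sub_cancel, ← Units.val_inv_eq_inv_val] at h

theorem lin_div {n : ℕ} {u u' : Lˣ} (hu : u ∈ C.V n) (hu' : u' ∈ C.V n) :
    (((u / u' : Lˣ) : L) - 1) - (((u : L) - 1) - ((u' : L) - 1)) ∈ C.J (n + 1) := by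
  rw [div_eq_mul_inv]
  have h1 := C.lin_mul hu ((C.V n).inv_mem hu')
  have h2 := C.lin_inv hu'
  have : (((u * u'⁻¹ : Lˣ) : L) - 1) - (((u : L) - 1) - ((u' : L) - 1)) =
      ((((u * u'⁻¹ : Lˣ) : L) - 1) - (((u : L) - 1) + (((u'⁻¹ : Lˣ) : L) - 1))) +
      ((((u'⁻¹ : Lˣ) : L) - 1) + ((u' : L) - 1)) := by ring
  rw [this]
  exact add_mem h1 h2

theorem lin_prod {n : ℕ} {ι : Type*} (s : Finset ι) (u : ι → Lˣ) (hu : ∀ i ∈ s, u i ∈ C.V n) :
    (((∏ i ∈ s, u i : Lˣ) : L) - 1) - ∑ i ∈ s, ((u i : L) - 1) ∈ C.J (n + 1) := by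
  induction s using Finset.induction_on with
  | empty => simp
  | insert a s ha ih =>
    rw [Finset.prod_insert ha, Finset.sum_insert ha]
    have hs : ∀ i ∈ s, u i ∈ C.V n := fun i hi => hu i (Finset.mem_insert_of_mem hi)
    have h1 := C.lin_mul (hu a (Finset.mem_insert_self a s)) ((C.V n).prod_mem hs)
    have h2 := ih hs
    have : (((u a * ∏ i ∈ s, u i : Lˣ) : L) - 1) - (((u a : L) - 1) + ∑ i ∈ s, ((u i : L) - 1)) =
        ((((u a * ∏ i ∈ s, u i : Lˣ) : L) - 1) - (((u a : L) - 1) + (((∏ i ∈ s, u i : Lˣ) : L) - 1)))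
        + ((((∏ i ∈ s, u i : Lˣ) : L) - 1) - ∑ i ∈ s, ((u i : L) - 1)) := by ring
    rw [this]
    exact add_mem h1 h2

/-- membership in the next step -/
theorem mem_V_succ_of {n : ℕ} {u : Lˣ} {e : L} (h : ((u : L) - 1) - e ∈ C.J (n + 1))
    (he : e ∈ C.J (n + 1)) : u ∈ C.V (n + 1) := by
  show (u : L) - 1 ∈ C.J (n + 1)
  have := add_mem h he
  rwa [sub_add_cancel] at this

end Ctx

end Fermat.Agent.S55.LocH24
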