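/-
S55 / 14-LOC-H (helper24): the unit group `V 0 = 1 + J 0` has trivial Tate cohomology
(`H⁰` and `H⁻¹`) for the cyclic group `Gal(L/K)`:
* `exists_norm_eq`  : a `g`-fixed element of `V 0` is the norm of an element of `V 0`;
* `exists_div_eq`   : a norm-one element of `V 0` is `g y / y` with `y ∈ V 0`.
-/
import Fermat.Agent.S55.LocH24.Units
import Fermat.Agent.S55.LocH24.Limit

set_option autoImplicit false
set_option linter.unusedSectionVars false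

open scoped BigOperators Classical

namespace Fermat.Agent.S55.LocH24

variable {K L : Type} [Field K] [Field L] [Algebra K L] [FiniteDimensional K L] [IsGalois K L]
variable {Γ₀ : Type*} [LinearOrderedCommGroupWithZero Γ₀] {v : Valuation L Γ₀}

/-- the Galois action on units -/
def gU (σ : L ≃ₐ[K] L) : Lˣ →* Lˣ := Units.map ((σ : L →ₐ[K] L) : L →* L)

@[simp] theorem coe_gU (σ : L ≃ₐ[K] L) (u : Lˣ) : ((gU σ u : Lˣ) : L) = σ (u : L) := rfl

theorem gU_mul (σ τ : L ≃ₐ[K] L) (u : Lˣ) : gU (σ * τ) u = gU σ (gU τ u) := by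
  ext; simp [AlgEquiv.mul_apply]

/-- the norm on units -/
noncomputable def normU : Lˣ →* Lˣ := ∏ σ : L ≃ₐ[K] L, gU (K := K) σ

theorem normU_apply (u : Lˣ) : normU (K := K) u = ∏ σ : L ≃ₐ[K] L, gU σ u :=
  MonoidHom.finsetProd_apply _ _ _

/-- `u ↦ g u / u` -/
def fU (g : L ≃ₐ[K] L) : Lˣ →* Lˣ := gU g / MonoidHom.id Lˣ

theorem fU_apply (g : L ≃ₐ[K] L) (u : Lˣ) : fU g u = gU g u / u := rfl

theorem gU_normU (τ : L ≃ₐ[K] L) (u : Lˣ) : gU τ (normU (K := K) u) = normU (K := K) u := by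
  rw [normU_apply, map_prod]
  refine Fintype.prod_equiv (Equiv.mulLeft τ) _ _ fun σ => ?_
  rw [← gU_mul]; rfl

theorem fU_normU (g : L ≃ₐ[K] L) (u : Lˣ) : fU g (normU (K := K) u) = 1 := by
  rw [fU_apply, gU_normU, div_self']

theorem normU_gU (τ : L ≃ₐ[K] L) (u : Lˣ) : normU (K := K) (gU τ u) = normU (K := K) u := by
  rw [normU_apply, normU_apply]
  refine Fintype.prod_equiv (Equiv.mulRight τ) _ _ fun σ => ?_
  rw [← gU_mul]; rfl

theorem normU_fU (g : L ≃ₐ[K] L) (u : Lˣ) : normU (K := K) (fU g u) = 1 := by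
  rw [fU_apply, map_div, normU_gU, div_self']

namespace Ctx

variable (C : Ctx K L v)

theorem gU_mem_V (σ : L ≃ₐ[K] L) {n : ℕ} {u : Lˣ} (hu : u ∈ C.V n) : gU σ u ∈ C.V n := by
  show ((gU σ u : Lˣ) : L) - 1 ∈ C.J n
  have : ((gU σ u : Lˣ) : L) - 1 = σ ((u : L) - 1) := by simp
  rw [this]
  exact (C.smul_mem_J_iff σ).mpr hu

theorem normU_mem_V {n : ℕ} {u : Lˣ} (hu : u ∈ C.V n) : normU (K := K) u ∈ C.V n := by
  rw [normU_apply]
  exact (C.V n).prod_mem fun σ _ => C.gU_mem_V σ hu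

theorem fU_mem_V {n : ℕ} {u : Lˣ} (hu : u ∈ C.V n) : fU C.g u ∈ C.V n :=
  (C.V n).div_mem (C.gU_mem_V C.g hu) hu

/-- linearisation of the norm -/
theorem lin_normU {n : ℕ} {u : Lˣ} (hu : u ∈ C.V n) :
    ((normU (K := K) u : Lˣ) : L) - 1 - ∑ σ : L ≃ₐ[K] L, σ ((u : L) - 1) ∈ C.J (n + 1) := by
  rw [normU_apply]
  have h := C.lin_prod Finset.univ (fun σ : L ≃ₐ[K] L => gU σ u) (fun σ _ => C.gU_mem_V σ hu)
  have h2 : ∑ σ : L ≃ₐ[K] L, (((gU σ u : Lˣ) : L) - 1) = ∑ σ : L ≃ₐ[K] L, σ ((u : L) - 1) := by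
    refine Finset.sum_congr rfl fun σ _ => ?_
    simp
  rwa [h2] at h

/-- linearisation of `g u / u` -/
theorem lin_fU {n : ℕ} {u : Lˣ} (hu : u ∈ C.V n) :
    ((fU C.g u : Lˣ) : L) - 1 - (C.g ((u : L) - 1) - ((u : L) - 1)) ∈ C.J (n + 1) := by
  have h := C.lin_div (C.gU_mem_V C.g hu) hu
  have h2 : ((gU C.g u : Lˣ) : L) - 1 = C.g ((u : L) - 1) := by simp
  rwa [h2] at h

/-- **graded exactness (A)** -/
theorem graded_A {n : ℕ} {u : Lˣ} (hu : u ∈ C.V n) (hfu : fU C.g u ∈ C.V (n + 1)) :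
    ∃ y ∈ C.V n, u / normU (K := K) y ∈ C.V (n + 1) := by
  set ε := (u : L) - 1 with hε
  have h1 := C.lin_fU hu
  have hgε : C.g ε - ε ∈ I C.N C.p ((2 * C.c + 1 + n) + 1) := by
    have := sub_mem (show ((fU C.g u : Lˣ) : L) - 1 ∈ C.J (n + 1) from hfu) h1
    rwa [sub_sub_cancel] at this
  obtain ⟨a, ha, hap⟩ := exists_trace_approx C.N C.hg (show ε ∈ I C.N C.p (2 * C.c + 1 + n) from hu)
    hgε
  have he : a • C.N.B 1 ∈ C.J n := by
    have h := smul_mem_I (N := C.N) (p := C.p) (i := 2 * C.c + 1 + n) (j := 0) ha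
      (B_mem_I (N := C.N) (p := C.p) 1)
    exact h
  refine ⟨C.mkU he, C.mkU_mem he, ?_⟩
  have h2 := C.lin_normU (C.mkU_mem he)
  have h3 := C.lin_div hu (C.normU_mem_V (C.mkU_mem he))
  have h4 : ((C.mkU he : Lˣ) : L) - 1 = a • C.N.B 1 := by rw [coe_mkU, add_sub_cancel_left]
  rw [h4] at h2
  refine C.mem_V_succ_of h3 ?_
  have : ε - (((normU (K := K) (C.mkU he) : Lˣ) : L) - 1) =
      (ε - ∑ σ : L ≃ₐ[K] L, σ (a • C.N.B 1)) -
      ((((normU (K := K) (C.mkU he) : Lˣ) : L) - 1) - ∑ σ : L ≃ₐ[K] L, σ (a • C.N.B 1)) := by ring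
  rw [this]
  exact sub_mem hap h2

/-- **graded exactness (B)** -/
theorem graded_B {n : ℕ} {u : Lˣ} (hu : u ∈ C.V n) (hNu : normU (K := K) u ∈ C.V (n + 1)) :
    ∃ y ∈ C.V n, u / fU C.g y ∈ C.V (n + 1) := by
  set ε := (u : L) - 1 with hε
  have h1 := C.lin_normU hu
  have htr : ∑ σ : L ≃ₐ[K] L, σ ε ∈ I C.N C.p ((2 * C.c + 1 + n) + 1) := by
    have := sub_mem (show ((normU (K := K) u : Lˣ) : L) - 1 ∈ C.J (n + 1) from hNu) h1
    rwa [sub_sub_cancel] at this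
  obtain ⟨y', hy', hyp⟩ := exists_sub_approx C.N C.hg
    (show ε ∈ I C.N C.p (2 * C.c + 1 + n) from hu) htr
  have hyJ : y' ∈ C.J n := hy'
  refine ⟨C.mkU hyJ, C.mkU_mem hyJ, ?_⟩
  have h2 := C.lin_fU (C.mkU_mem hyJ)
  have h3 := C.lin_div hu (C.fU_mem_V (C.mkU_mem hyJ))
  have h4 : ((C.mkU hyJ : Lˣ) : L) - 1 = y' := by rw [coe_mkU, add_sub_cancel_left]
  rw [h4] at h2
  refine C.mem_V_succ_of h3 ?_
  have : ε - (((fU C.g (C.mkU hyJ) : Lˣ) : L) - 1) =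
      (ε - (C.g y' - y')) - ((((fU C.g (C.mkU hyJ) : Lˣ) : L) - 1) - (C.g y' - y')) := by ring
  rw [this]
  exact sub_mem hyp h2

end Ctx

end Fermat.Agent.S55.LocH24
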