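/-
S55 / 14-LOC-H (helper24): completeness of the filtration `V n`, and the two vanishing statements
for `V 0` via the limit lemma.
-/
import Fermat.Agent.S55.LocH24.Exact

set_option autoImplicit false
set_option linter.unusedSectionVars false

open scoped BigOperators Classical

namespace Fermat.Agent.S55.LocH24

variable {K L : Type} [Field K] [Field L] [Algebra K L] [FiniteDimensional K L] [IsGalois K L]
variable {Γ₀ : Type*} [LinearOrderedCommGroupWithZero Γ₀] {v : Valuation L Γ₀}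

namespace Ctx

variable (C : Ctx K L v)

open Finset

theorem v_le_pow_of_mem_J {n : ℕ} {x : L} (hx : x ∈ C.J n) : v x ≤ v (algebraMap K L C.p) ^ n := by
  refine (v_le_of_mem_I hx).trans ?_
  exact pow_le_pow_of_le_one zero_le C.hp.le (by omega)

/-- separatedness -/
theorem V_sep (u : Lˣ) (hu : ∀ n, u ∈ C.V n) : u = 1 := by
  have h : (u : L) - 1 = 0 :=
    C.D.sep (algebraMap K L C.p) _ C.hp fun n => C.v_le_pow_of_mem_J (hu n)
  exact Units.ext (sub_eq_zero.mp h)

/-- small elements are in `J` -/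
theorem mem_J_of_v_le {n : ℕ} {x : L} (hx : v x ≤ v (algebraMap K L C.p) ^ (n + (3 * C.c + 1))) :
    x ∈ C.J n := by
  apply C.hc
  have : 2 * C.c + 1 + n + C.c = n + (3 * C.c + 1) := by omega
  rw [this]; exact hx

/-- completeness -/
theorem V_complete (y : ℕ → Lˣ) (hy : ∀ n, y n ∈ C.V n) :
    ∃ s ∈ C.V 0, ∀ N, s / ∏ n ∈ range N, y n ∈ C.V N := by
  set P : ℕ → Lˣ := fun N => ∏ n ∈ range N, y n with hP
  have hP0 : ∀ N, P N ∈ C.V 0 := fun N =>
    (C.V 0).prod_mem fun n _ => C.V_anti (Nat.zero_le n) (hy n)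
  set d : ℕ → L := fun N => ((P (N + 1) : Lˣ) : L) - ((P N : Lˣ) : L) with hd
  have hdJ : ∀ N, d N ∈ C.J N := by
    intro N
    have h1 : d N = ((y N : L) - 1) + (((P N : Lˣ) : L) - 1) * ((y N : L) - 1) := by
      simp only [hd, hP, prod_range_succ]
      push_cast; ring
    rw [h1]
    exact add_mem (hy N) (C.J_anti (by omega) (C.mul_mem_J (hP0 N) (hy N)))
  obtain ⟨s₀, hs₀⟩ := C.D.complete (algebraMap K L C.p) C.hp d
    fun n => C.v_le_pow_of_mem_J (hdJ n)
  have hsum : ∀ N, ∑ n ∈ range N, d n = ((P N : Lˣ) : L) - 1 := by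
    intro N
    rw [sum_range_sub (fun N => ((P N : Lˣ) : L)) N]
    simp [hP]
  -- the remainders
  set r : ℕ → L := fun N => s₀ - (((P N : Lˣ) : L) - 1) with hr
  have hrv : ∀ N, v (r N) ≤ v (algebraMap K L C.p) ^ N := by
    intro N; rw [hr]; simp only; rw [← hsum N]; exact hs₀ N
  have hdiff : ∀ N k, ((P (N + k) : Lˣ) : L) - ((P N : Lˣ) : L) ∈ C.J N := by
    intro N k
    induction k with
    | zero => simp
    | succ k ih =>
      have : ((P (N + (k + 1)) : Lˣ) : L) - ((P N : Lˣ) : L) =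
          d (N + k) + (((P (N + k) : Lˣ) : L) - ((P N : Lˣ) : L)) := by
        simp only [hd, ← add_assoc]; ring
      rw [this]
      exact add_mem (C.J_anti (by omega) (hdJ (N + k))) ih
  have hrJ : ∀ N, r N ∈ C.J N := by
    intro N
    have h1 : r N = r (N + (3 * C.c + 1)) +
        (((P (N + (3 * C.c + 1)) : Lˣ) : L) - ((P N : Lˣ) : L)) := by
      simp only [hr]; ring
    rw [h1]
    exact add_mem (C.mem_J_of_v_le (hrv _)) (hdiff N _)
  have hs₀J : s₀ ∈ C.J 0 := by
    have := hrJ 0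
    simpa [hr, hP] using this
  refine ⟨C.mkU hs₀J, C.mkU_mem hs₀J, fun N => ?_⟩
  show ((C.mkU hs₀J / P N : Lˣ) : L) - 1 ∈ C.J N
  have hPinv : (P N)⁻¹ ∈ C.V 0 := (C.V 0).inv_mem (hP0 N)
  have h2 : ((C.mkU hs₀J / P N : Lˣ) : L) - 1 =
      r N + r N * ((((P N)⁻¹ : Lˣ) : L) - 1) := by
    rw [div_eq_mul_inv, Units.val_mul, coe_mkU]
    have hmul : ((P N : Lˣ) : L) * (((P N)⁻¹ : Lˣ) : L) = 1 := by
      rw [← Units.val_mul, mul_inv_cancel, Units.val_one]
    simp only [hr]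
    linear_combination hmul
  rw [h2]
  exact add_mem (hrJ N) (C.J_anti (by omega) (C.mul_mem_J (hrJ N) hPinv))

/-- **`H⁰` of `V 0` vanishes**: a `g`-fixed element of `V 0` is a norm from `V 0`. -/
theorem exists_norm_eq {u : Lˣ} (hu : u ∈ C.V 0) (hfix : fU C.g u = 1) :
    ∃ y ∈ C.V 0, normU (K := K) y = u :=
  exists_of_graded (fU C.g) (normU (K := K)) (fU_normU C.g) C.V
    (fun _ _ hx => C.normU_mem_V hx) C.V_sep C.V_complete
    (fun _ _ hx hfx => C.graded_A hx hfx) u hu hfix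

/-- **`H⁻¹` of `V 0` vanishes**: a norm-one element of `V 0` is `g y / y` with `y ∈ V 0`. -/
theorem exists_div_eq {u : Lˣ} (hu : u ∈ C.V 0) (hN : normU (K := K) u = 1) :
    ∃ y ∈ C.V 0, fU C.g y = u :=
  exists_of_graded (normU (K := K)) (fU C.g) (normU_fU C.g) C.V
    (fun _ _ hx => C.fU_mem_V hx) C.V_sep C.V_complete
    (fun _ _ hx hfx => C.graded_B hx hfx) u hu hN

end Ctx

end Fermat.Agent.S55.LocH24
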